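import Mathlib

/-!
# Weak approximation for finitely many valuation subrings of a field

`F` a field, `V : ι → ValuationSubring F` a finite family of pairwise incomparable valuation
rings, each *archimedean* (`IsArch`: rank at most one — for `v a < 1` and `d ≠ 0` some power
`a ^ n` has `v (a ^ n) < v d`).

* `exists_gt_one_lt_one` : an element `z` with `v_i z > 1` and `v_j z < 1` for `j ∈ s`;
* `exists_idem` : an element `e` arbitrarily close to `1` at `i` and to `0` at the other places;
* `exists_approx` : **weak approximation** — for `x, d : ι → F` (`d i ≠ 0`) there is `y` with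
  `v_i (y - x i) < v_i (d i)` for all `i`;
* `exists_valuation_eq` : prescribed valuations; `exists_unit_approx` : multiplicative form.
-/

set_option autoImplicit false

namespace Fermat.Agent.Lib.Valuation.WeakApproxN

variable {F : Type*} [Field F]

/-- The valuation ring `V` has rank at most one: every element of valuation `< 1` has powers of
arbitrarily small valuation. -/
def IsArch (V : ValuationSubring F) : Prop :=
  ∀ a d : F, V.valuation a < 1 → d ≠ 0 → ∃ n : ℕ, V.valuation (a ^ n) < V.valuation d

theorem IsArch.exists_forall_ge {V : ValuationSubring F} (h : IsArch V) {a : F}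
    (ha : V.valuation a < 1) {d : F} (hd : d ≠ 0) :
    ∃ n : ℕ, ∀ r : ℕ, n ≤ r → V.valuation (a ^ r) < V.valuation d := by
  obtain ⟨n, hn⟩ := h a d ha hd
  refine ⟨n, fun r hr => lt_of_le_of_lt ?_ hn⟩
  rw [map_pow, map_pow]
  exact pow_le_pow_of_le_one zero_le ha.le hr

/-- Two incomparable valuation rings are separated by an element. -/
theorem exists_gt_one_lt_one_pair {V W : ValuationSubring F} (h1 : ¬ V ≤ W) (h2 : ¬ W ≤ V) :
    ∃ z : F, 1 < V.valuation z ∧ W.valuation z < 1 := by
  obtain ⟨a, haV, haW⟩ := Set.not_subset.mp h1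
  obtain ⟨b, hbW, hbV⟩ := Set.not_subset.mp h2
  have ha0 : a ≠ 0 := fun h => haW (h ▸ W.zero_mem)
  have hVa : V.valuation a ≤ 1 := (V.valuation_le_one_iff a).mpr haV
  have hWa : 1 < W.valuation a := not_le.mp fun h => haW ((W.valuation_le_one_iff a).mp h)
  have hWb : W.valuation b ≤ 1 := (W.valuation_le_one_iff b).mpr hbW
  have hVb : 1 < V.valuation b := not_le.mp fun h => hbV ((V.valuation_le_one_iff b).mp h)
  have hVa0 : V.valuation a ≠ 0 := (V.valuation.ne_zero_iff).mpr ha0
  have hWa0 : W.valuation a ≠ 0 := (W.valuation.ne_zero_iff).mpr ha0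
  refine ⟨b / a, ?_, ?_⟩
  · rw [map_div₀, lt_div_iff₀ (zero_lt_iff.mpr hVa0), one_mul]
    exact lt_of_le_of_lt hVa hVb
  · rw [map_div₀, div_lt_iff₀ (zero_lt_iff.mpr hWa0), one_mul]
    exact lt_of_le_of_lt hWb hWa

section elements

variable (V : ValuationSubring F)

theorem valuation_one_add_of_gt {z : F} (hz : 1 < V.valuation z) :
    V.valuation (1 + z) = V.valuation z := by
  have h : V.valuation 1 < V.valuation z := by rwa [map_one]
  exact V.valuation.map_add_eq_of_lt_right h

theorem valuation_one_add_of_lt {z : F} (hz : V.valuation z < 1) :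
    V.valuation (1 + z) = 1 := by
  have h : V.valuation z < V.valuation 1 := by rwa [map_one]
  rw [V.valuation.map_add_eq_of_lt_left h, map_one]

theorem one_add_ne_zero_of_gt {z : F} (hz : 1 < V.valuation z) : 1 + z ≠ 0 := by
  intro h
  have := valuation_one_add_of_gt V hz
  rw [h, map_zero] at this
  exact absurd (this ▸ hz) (not_lt.mpr zero_le)

theorem one_add_ne_zero_of_lt {z : F} (hz : V.valuation z < 1) : 1 + z ≠ 0 := by
  intro h
  have := valuation_one_add_of_lt V hz
  rw [h, map_zero] at this
  exact zero_ne_one this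

/-- `z / (1 + z)` is a unit where `z` is large. -/
theorem valuation_div_one_add_of_gt {z : F} (hz : 1 < V.valuation z) :
    V.valuation (z / (1 + z)) = 1 := by
  have h0 : V.valuation z ≠ 0 := (lt_trans zero_lt_one hz).ne'
  rw [map_div₀, valuation_one_add_of_gt V hz, div_self h0]

/-- `z / (1 + z) - 1` is small where `z` is large. -/
theorem valuation_div_one_add_sub_one_of_gt {z : F} (hz : 1 < V.valuation z) :
    V.valuation (z / (1 + z) - 1) = V.valuation z⁻¹ := by
  have h1 : 1 + z ≠ 0 := one_add_ne_zero_of_gt V hz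
  have e : z / (1 + z) - 1 = - (1 + z)⁻¹ := by
    field_simp
    ring
  rw [e, Valuation.map_neg, map_inv₀, map_inv₀, valuation_one_add_of_gt V hz]

/-- `z / (1 + z)` is as small as `z` where `z` is small. -/
theorem valuation_div_one_add_of_lt {z : F} (hz : V.valuation z < 1) :
    V.valuation (z / (1 + z)) = V.valuation z := by
  rw [map_div₀, valuation_one_add_of_lt V hz, div_one]

end elements

variable {ι : Type*} (V : ι → ValuationSubring F)

/-- For a finite nonempty set `s` of indices and `i ∉ s` there is an element which is large at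
`i` and small at every index of `s`. -/
theorem exists_gt_one_lt_one (hV : ∀ i j, i ≠ j → ¬ V i ≤ V j) (harch : ∀ i, IsArch (V i))
    (i : ι) (s : Finset ι) (hi : i ∉ s) (hs : s.Nonempty) :
    ∃ z : F, 1 < (V i).valuation z ∧ ∀ j ∈ s, (V j).valuation z < 1 := by
  classical
  induction s using Finset.induction_on with
  | empty => exact absurd hs Finset.not_nonempty_empty
  | insert j₀ s hj₀ ih =>
    have hij₀ : i ≠ j₀ := fun h => hi (h ▸ Finset.mem_insert_self _ _)
    have his : i ∉ s := fun h => hi (Finset.mem_insert_of_mem h)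
    obtain ⟨y, hy1, hy2⟩ := exists_gt_one_lt_one_pair (hV i j₀ hij₀) (hV j₀ i hij₀.symm)
    rcases s.eq_empty_or_nonempty with rfl | hsne
    · refine ⟨y, hy1, fun j hj => ?_⟩
      rw [Finset.mem_insert] at hj
      rcases hj with rfl | hj
      · exact hy2
      · exact absurd hj (Finset.notMem_empty j)
    obtain ⟨z, hz1, hz2⟩ := ih his hsne
    have hy0 : y ≠ 0 := by
      rintro rfl
      rw [map_zero] at hy1
      exact absurd hy1 (not_lt.mpr zero_le)
    -- a uniform exponent
    have hex : ∀ j ∈ s, ∃ n : ℕ, ∀ r : ℕ, n ≤ r →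
        (V j).valuation (z ^ r) < (V j).valuation y⁻¹ := fun j hj =>
      (harch j).exists_forall_ge (hz2 j hj) (inv_ne_zero hy0)
    choose! n hn using hex
    set r := (∑ j ∈ s, n j) + 1 with hr
    have hnr : ∀ j ∈ s, n j ≤ r := fun j hj =>
      (Finset.single_le_sum (fun _ _ => Nat.zero_le _) hj).trans (Nat.le_succ _)
    have hr1 : 1 ≤ r := Nat.le_add_left 1 _
    have hsmall : ∀ j ∈ s, (V j).valuation (z ^ r) * (V j).valuation y < 1 := by
      intro j hj
      have h := hn j hj r (hnr j hj)
      have hyj : (V j).valuation y ≠ 0 := ((V j).valuation.ne_zero_iff).mpr hy0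
      rw [map_inv₀] at h
      calc (V j).valuation (z ^ r) * (V j).valuation y
          < ((V j).valuation y)⁻¹ * (V j).valuation y :=
            mul_lt_mul_of_pos_right h (zero_lt_iff.mpr hyj)
        _ = 1 := inv_mul_cancel₀ hyj
    have hzr1 : 1 < (V i).valuation (z ^ r) := by
      rw [map_pow]
      exact one_lt_pow₀ hz1 (Nat.one_le_iff_ne_zero.mp hr1)
    by_cases hc : (V j₀).valuation z ≤ 1
    · -- case 1: `z ^ r * y`
      refine ⟨z ^ r * y, ?_, fun j hj => ?_⟩
      · rw [map_mul]
        exact one_lt_mul_of_lt_of_le' hzr1 hy1.le |>.trans_le' le_rfl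
      · rw [Finset.mem_insert] at hj
        rcases hj with rfl | hj
        · rw [map_mul, map_pow]
          calc (V j).valuation z ^ r * (V j).valuation y
              ≤ 1 * (V j).valuation y :=
                mul_le_mul_left (pow_le_one₀ zero_le hc) _
            _ < 1 := by rw [one_mul]; exact hy2
        · rw [map_mul]
          exact hsmall j hj
    · -- case 2: `z ^ r / (1 + z ^ r) * y`
      have hc' : 1 < (V j₀).valuation (z ^ r) := by
        rw [map_pow]
        exact one_lt_pow₀ (not_le.mp hc) (Nat.one_le_iff_ne_zero.mp hr1)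
      refine ⟨z ^ r / (1 + z ^ r) * y, ?_, fun j hj => ?_⟩
      · rw [map_mul, valuation_div_one_add_of_gt _ hzr1, one_mul]
        exact hy1
      · rw [Finset.mem_insert] at hj
        rcases hj with rfl | hj
        · rw [map_mul, valuation_div_one_add_of_gt _ hc', one_mul]
          exact hy2
        · have hzj : (V j).valuation (z ^ r) < 1 := by
            rw [map_pow]
            exact pow_lt_one₀ zero_le (hz2 j hj) (Nat.one_le_iff_ne_zero.mp hr1)
          rw [map_mul, valuation_div_one_add_of_lt _ hzj]
          exact hsmall j hj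

/-- **Approximate idempotents**: an element close to `1` at `i` and close to `0` at all other
places. -/
theorem exists_idem [Fintype ι] (hV : ∀ i j, i ≠ j → ¬ V i ≤ V j) (harch : ∀ i, IsArch (V i))
    (i : ι) (δ : ι → F) (hδ : ∀ j, δ j ≠ 0) :
    ∃ e : F, (V i).valuation (e - 1) < (V i).valuation (δ i) ∧
      ∀ j, j ≠ i → (V j).valuation e < (V j).valuation (δ j) := by
  classical
  rcases (Finset.univ.erase i).eq_empty_or_nonempty with h | h
  · refine ⟨1, ?_, fun j hj => ?_⟩
    · rw [sub_self, map_zero]
      exact zero_lt_iff.mpr (((V i).valuation.ne_zero_iff).mpr (hδ i))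
    · have hj' : j ∈ Finset.univ.erase i := Finset.mem_erase.mpr ⟨hj, Finset.mem_univ j⟩
      rw [h] at hj'
      exact absurd hj' (Finset.notMem_empty j)
  obtain ⟨z, hz1, hz2⟩ := exists_gt_one_lt_one V hV harch i (Finset.univ.erase i)
    (Finset.notMem_erase i _) h
  have hzi : (V i).valuation z⁻¹ < 1 := by
    rw [map_inv₀]
    exact inv_lt_one_of_one_lt₀ hz1
  obtain ⟨n₀, hn₀⟩ := (harch i).exists_forall_ge hzi (hδ i)
  have hex : ∀ j ∈ Finset.univ.erase i, ∃ n : ℕ, ∀ r : ℕ, n ≤ r →
      (V j).valuation (z ^ r) < (V j).valuation (δ j) := fun j hj =>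
    (harch j).exists_forall_ge (hz2 j hj) (hδ j)
  choose! n hn using hex
  set r := n₀ + (∑ j ∈ Finset.univ.erase i, n j) + 1 with hr
  have hr1 : r ≠ 0 := Nat.succ_ne_zero _
  have hn₀r : n₀ ≤ r := by omega
  have hnr : ∀ j ∈ Finset.univ.erase i, n j ≤ r := fun j hj => by
    have := Finset.single_le_sum (f := n) (fun _ _ => Nat.zero_le _) hj
    omega
  refine ⟨z ^ r / (1 + z ^ r), ?_, fun j hj => ?_⟩
  · have h1 : 1 < (V i).valuation (z ^ r) := by
      rw [map_pow]
      exact one_lt_pow₀ hz1 hr1
    rw [valuation_div_one_add_sub_one_of_gt _ h1, ← inv_pow]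
    exact hn₀ r hn₀r
  · have hj' : j ∈ Finset.univ.erase i := Finset.mem_erase.mpr ⟨hj, Finset.mem_univ j⟩
    have h1 : (V j).valuation (z ^ r) < 1 := by
      rw [map_pow]
      exact pow_lt_one₀ zero_le (hz2 j hj') hr1
    rw [valuation_div_one_add_of_lt _ h1]
    exact hn j hj' r (hnr j hj')

/-- **Weak approximation** for finitely many pairwise incomparable archimedean valuation
rings. -/
theorem exists_approx [Fintype ι] (hV : ∀ i j, i ≠ j → ¬ V i ≤ V j)
    (harch : ∀ i, IsArch (V i)) (x d : ι → F) (hd : ∀ i, d i ≠ 0) :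
    ∃ y : F, ∀ i, (V i).valuation (y - x i) < (V i).valuation (d i) := by
  classical
  have hdpos : ∀ i j, 0 < (V j).valuation (d i) := fun i j =>
    zero_lt_iff.mpr (((V j).valuation.ne_zero_iff).mpr (hd i))
  have hex : ∀ i, ∃ e : F, (V i).valuation (x i * (e - 1)) < (V i).valuation (d i) ∧
      ∀ j, j ≠ i → (V j).valuation (x i * e) < (V j).valuation (d j) := by
    intro i
    by_cases hx : x i = 0
    · refine ⟨1, ?_, fun j _ => ?_⟩
      · rw [hx, zero_mul, map_zero]
        exact hdpos i i
      · rw [hx, zero_mul, map_zero]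
        exact hdpos j j
    · obtain ⟨e, he1, he2⟩ := exists_idem V hV harch i (fun j => d j / x i)
        (fun j => div_ne_zero (hd j) hx)
      have hxpos : ∀ j, 0 < (V j).valuation (x i) := fun j =>
        zero_lt_iff.mpr (((V j).valuation.ne_zero_iff).mpr hx)
      refine ⟨e, ?_, fun j hj => ?_⟩
      · rw [map_div₀, lt_div_iff₀ (hxpos i)] at he1
        rw [map_mul, mul_comm]
        exact he1
      · have h := he2 j hj
        rw [map_div₀, lt_div_iff₀ (hxpos j)] at h
        rw [map_mul, mul_comm]
        exact h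
  choose e he1 he2 using hex
  refine ⟨∑ i, x i * e i, fun k => ?_⟩
  have hsum : ∑ i, x i * e i - x k = ∑ i, (x i * e i - if i = k then x k else 0) := by
    rw [Finset.sum_sub_distrib, Finset.sum_ite_eq' Finset.univ k, if_pos (Finset.mem_univ k)]
  rw [hsum]
  refine Valuation.map_sum_lt _ (hdpos k k).ne' fun i _ => ?_
  by_cases hik : i = k
  · subst hik
    rw [if_pos rfl]
    have e1 : x i * e i - x i = x i * (e i - 1) := by ring
    rw [e1]
    exact he1 i
  · rw [if_neg hik, sub_zero]
    exact he2 i k (Ne.symm hik)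

/-- Prescribed valuations: an element with the same valuation as `x i` at every `i`. -/
theorem exists_valuation_eq [Fintype ι] (hV : ∀ i j, i ≠ j → ¬ V i ≤ V j)
    (harch : ∀ i, IsArch (V i)) (x : ι → F) (hx : ∀ i, x i ≠ 0) :
    ∃ y : F, y ≠ 0 ∧ ∀ i, (V i).valuation y = (V i).valuation (x i) := by
  obtain ⟨y, hy⟩ := exists_approx V hV harch x x hx
  have key : ∀ i, (V i).valuation y = (V i).valuation (x i) := by
    intro i
    have e : y = x i + (y - x i) := by ring
    rw [e]
    exact (V i).valuation.map_add_eq_of_lt_left (hy i)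
  by_cases hι : Nonempty ι
  · obtain ⟨i⟩ := hι
    refine ⟨y, ?_, key⟩
    intro h0
    have := key i
    rw [h0, map_zero] at this
    exact (((V i).valuation.ne_zero_iff).mpr (hx i)) this.symm
  · exact ⟨1, one_ne_zero, fun i => absurd ⟨i⟩ hι⟩

/-- **Multiplicative weak approximation**: `y / x i` is close to `1` at every `i`. -/
theorem exists_unit_approx [Fintype ι] (hV : ∀ i j, i ≠ j → ¬ V i ≤ V j)
    (harch : ∀ i, IsArch (V i)) (x d : ι → F) (hx : ∀ i, x i ≠ 0) (hd : ∀ i, d i ≠ 0) :
    ∃ y : F, ∀ i, (V i).valuation (y / x i - 1) < (V i).valuation (d i) := by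
  obtain ⟨y, hy⟩ := exists_approx V hV harch x (fun i => d i * x i)
    (fun i => mul_ne_zero (hd i) (hx i))
  refine ⟨y, fun i => ?_⟩
  have hxpos : 0 < (V i).valuation (x i) :=
    zero_lt_iff.mpr (((V i).valuation.ne_zero_iff).mpr (hx i))
  have e : y / x i - 1 = (y - x i) / x i := by
    field_simp [hx i]
  have h := hy i
  rw [map_mul] at h
  rw [e, map_div₀, div_lt_iff₀ hxpos]
  exact h

end Fermat.Agent.Lib.Valuation.WeakApproxN
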